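import Mathlib
import Fermat.Agent.S24.PlaceDict
import Fermat.Prelude.Def_ModularCurve_HeckeModule

/-!
# S15 / L12 : the two cusps of `X₀(p)` and the cuspidal class `c₀ = [(0) − (∞)]` — definitions

* `jd p d h : FN p` — the generator `j(q^d)` of the function field (main's `S24.jFormal`);
* `cuspInf p`, `cuspZero p : Place ℚ̄ (FN p)` — the places at the cusps `∞` and `0`
  (main's `S24.PlaceDict.placeCusp p 1` and `placeCusp p S`);
* `cuspDiv p = (0) − (∞)`, of degree zero, and its class `c0 p : JZero p`.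

The statements about them (orders of `j(q)`, `j(q^p)`, uniqueness, Galois-fixedness, Hecke
eigenvalue `1 + q`, torsion, non-vanishing) are the Props of `Interface.lean`.
-/

set_option autoImplicit false

noncomputable section

namespace Fermat.Agent.S15P.Cusp45

open AlgebraicCurve ModularCurve Fermat.Agent.S24
open scoped MatrixGroups

/-- `j(q^d)` as an element of the function field of `X₀(N)` over `ℚ̄`. -/
def jd (N : ℕ) [NeZero N] (d : ℕ) (h : d ∣ N) : FN N := jFormal N ⟨d, h⟩

/-- The place of `ℚ̄(X₀(N))` at the cusp `∞`. -/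
def cuspInf (N : ℕ) [NeZero N] : Place (AlgebraicClosure ℚ) (FN N) :=
  PlaceDict.placeCusp N 1

/-- The place of `ℚ̄(X₀(N))` at the cusp `0`. -/
def cuspZero (N : ℕ) [NeZero N] : Place (AlgebraicClosure ℚ) (FN N) :=
  PlaceDict.placeCusp N ModularGroup.S

/-- The divisor `(0) − (∞)`. -/
def cuspDiv (N : ℕ) [NeZero N] : Divisor (AlgebraicClosure ℚ) (FN N) :=
  Finsupp.single (cuspZero N) 1 - Finsupp.single (cuspInf N) 1

theorem cuspDiv_mem_degZero (N : ℕ) [NeZero N] :
    cuspDiv N ∈ Divisor.degZero (K := AlgebraicClosure ℚ) (F := FN N) := by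
  rw [Divisor.mem_degZero, cuspDiv, map_sub, Divisor.degree_single, Divisor.degree_single,
    PlaceDict.deg_eq_one, PlaceDict.deg_eq_one]
  simp

/-- **The cuspidal class** `c₀ = [(0) − (∞)] ∈ J₀(N)(ℚ̄)`. -/
def c0 (N : ℕ) [NeZero N] : JZero N := Pic0.mk ⟨cuspDiv N, cuspDiv_mem_degZero N⟩

end Fermat.Agent.S15P.Cusp45
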