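import Mathlib
import Fermat.Agent.S15P.Cusp45.Defs
import Fermat.Agent.Lib.FF.PlaceInf

/-!
# S15 / L12 : the cuspidal class — interface (Props only; the proofs are in the sibling files)

`cuspInf p`, `cuspZero p`, `c0 p` are defined in `Defs.lean`.  Each statement below is a `Prop`;
consumers can take them as hypotheses from minute 0.

* `CuspOrders`  : orders of `j(q)`, `j(q^p)` at the two cusps: `(-1, -p)` at `∞`, `(-p, -1)` at `0`;
* `CuspUnique`  : a pole of `j(q)` is one of the two cusps, and WHICH one is read off the orders;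
* `CuspInfEq`   : `cuspInf p` is the `q`-expansion place `placeInfL ℚ̄ p` of main;
* `CuspGalois`  : both cusps, hence `c₀`, are fixed by `Gal(ℚ̄/ℚ)`;
* `CuspHecke`   : `T_q c₀ = (1 + q) c₀` for every prime `q ≠ p`;
* `CuspTorsion` : `(p - 1) c₀ = 0`;
* `CuspNeZero`  : `c₀ ≠ 0` for `p ∉ {2, 3, 5, 7, 13}`.
-/

set_option autoImplicit false

noncomputable section

namespace Fermat.Agent.S15P.Cusp45

open AlgebraicCurve ModularCurve Fermat.Agent.S24

local notation "Qb" => AlgebraicClosure ℚ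

/-- Orders of `j(q)` and `j(q^p)` at the two cusps. -/
def CuspOrders : Prop :=
  ∀ (p : ℕ) [NeZero p], p.Prime →
    (cuspInf p).ord (jd p 1 (one_dvd p)) = -1 ∧ (cuspInf p).ord (jd p p dvd_rfl) = -(p : ℤ) ∧
    (cuspZero p).ord (jd p 1 (one_dvd p)) = -(p : ℤ) ∧ (cuspZero p).ord (jd p p dvd_rfl) = -1

/-- The poles of `j(q)` (equivalently of `j(q^p)`) are the two cusps, told apart by the orders. -/
def CuspUnique : Prop :=
  ∀ (p : ℕ) [NeZero p], p.Prime → ∀ x : Place Qb (FN p),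
    (x.ord (jd p p dvd_rfl) < 0 ↔ x.ord (jd p 1 (one_dvd p)) < 0) ∧
    (x.ord (jd p 1 (one_dvd p)) < 0 →
      (x = cuspInf p ∨ x = cuspZero p) ∧
      (x.ord (jd p p dvd_rfl) = p * x.ord (jd p 1 (one_dvd p)) → x = cuspInf p) ∧
      (x.ord (jd p 1 (one_dvd p)) = p * x.ord (jd p p dvd_rfl) → x = cuspZero p))

/-- `cuspInf` is the `q`-expansion place of main's `Lib/FF/PlaceInf`. -/
def CuspInfEq : Prop :=
  ∀ (N : ℕ) [NeZero N], cuspInf N = Fermat.Agent.Lib.FF.PlaceInf.placeInfL Qb N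

/-- The two cusps and the cuspidal class are Galois-fixed. -/
def CuspGalois : Prop :=
  ∀ (p : ℕ) [NeZero p], p.Prime → ∀ σ : Qb ≃ₐ[ℚ] Qb,
    arithmeticGalois (modularFunctionFieldFull p) σ • cuspInf p = cuspInf p ∧
    arithmeticGalois (modularFunctionFieldFull p) σ • cuspZero p = cuspZero p ∧
    σ • c0 p = c0 p

/-- `T_q c₀ = (1 + q) c₀`. -/
def CuspHecke : Prop :=
  ∀ (p : ℕ) [NeZero p], p.Prime → ∀ q : Nat.Primes, (q : ℕ) ≠ p →
    heckeOperatorBar p q (c0 p) = (1 + (q : ℕ)) • c0 p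

/-- `c₀` is torsion. -/
def CuspTorsion : Prop :=
  ∀ (p : ℕ) [NeZero p], p.Prime → (p - 1) • c0 p = 0

/-- `c₀ ≠ 0` when `X₀(p)` has positive genus. -/
def CuspNeZero : Prop :=
  ∀ (p : ℕ) [NeZero p], p.Prime → p ∉ ({2, 3, 5, 7, 13} : Finset ℕ) → c0 p ≠ 0

end Fermat.Agent.S15P.Cusp45
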