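import Mathlib
import Fermat.Agent.S15P.Cusp45.Defs
import Fermat.Agent.S24.HNFMod
import Fermat.Agent.S24.CuspTop
import Fermat.Agent.S24.PtTop
import Fermat.Agent.ESJ.Cong.ConjAnalytic
import Fermat.Agent.S28.ValInd

/-!
# S15 / L12 : orders of the generators `j(q^d)` at the cusp places

For `g ∈ SL(2, ℤ)`, `c := |(g⁻¹)₁₀|` and `d ∣ N`:

* `valCusp_jFormal_mul` : `valCusp N g (j(q^d)) · d = − N · gcd(d, c)²`;
* `ord_placeCusp_mul`   : the same for `mulCusp N g · ord_{placeCusp N g}`;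
* `ord_placeCusp_neg`   : every `j(q^d)` has a pole at every cusp place;
* `ord_placeCusp_of_dvd`, `ord_placeCusp_of_not_dvd` : for a prime `p` with `p d ∣ N`, `p ∤ d`:
  `ord j(q^{pd}) = p · ord j(q^d)` if `p ∣ c`, and `ord j(q^d) = p · ord j(q^{pd})` if `p ∤ c`;
* `exists_placeCusp_of_ord_neg` : a place at which some `j(q^d)` has a pole is a cusp place;
* `type_transfer_inf`, `type_transfer_zero` : at ANY place where some generator has a pole, the
  relation "`ord j(q^{pd}) = p · ord j(q^d)`" (resp. the opposite one) does not depend on `d`.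
-/

set_option autoImplicit false

noncomputable section

namespace Fermat.Agent.S15P.Cusp45

open AlgebraicCurve ModularCurve Fermat.Agent.S24 UpperHalfPlane
open scoped MatrixGroups

local notation "Qb" => AlgebraicClosure ℚ

theorem jFormal_ne_zero (N : ℕ) [NeZero N] (d : Dv N) : jFormal N d ≠ 0 := by
  intro h0
  have h1 := Fermat.Agent.ESJ.Cong.ConjAnalytic.coe_jFormal N d
  have h2 := Fermat.Agent.S28.ValInd.order_Jd (K := KQ) d.1 d.neZero.ne
  rw [← h1, h0, ZeroMemClass.coe_zero, HahnSeries.order_zero] at h2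
  have := d.neZero.ne
  omega

theorem jd_ne_zero (N : ℕ) [NeZero N] (d : ℕ) (h : d ∣ N) : jd N d h ≠ 0 :=
  jFormal_ne_zero N ⟨d, h⟩

/-- The lower-left entry of `g⁻¹`, in absolute value. -/
def lowerAbs (g : SL(2, ℤ)) : ℕ := ((g⁻¹ : SL(2, ℤ)) 1 0).natAbs

theorem gcd_mul_entry (g : SL(2, ℤ)) (d : ℕ) :
    Int.gcd ((d : ℤ) * (g⁻¹ : SL(2, ℤ)) 0 0) ((g⁻¹ : SL(2, ℤ)) 1 0) = Nat.gcd d (lowerAbs g) := by
  have hdet : (g⁻¹ : SL(2, ℤ)) 0 0 * (g⁻¹ : SL(2, ℤ)) 1 1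
      - (g⁻¹ : SL(2, ℤ)) 0 1 * (g⁻¹ : SL(2, ℤ)) 1 0 = 1 := by
    have := (g⁻¹ : SL(2, ℤ)).det_coe
    rwa [Matrix.det_fin_two] at this
  have hcop : IsCoprime ((g⁻¹ : SL(2, ℤ)) 0 0) ((g⁻¹ : SL(2, ℤ)) 1 0) :=
    ⟨(g⁻¹ : SL(2, ℤ)) 1 1, -(g⁻¹ : SL(2, ℤ)) 0 1, by linear_combination hdet⟩
  have hcop' : Nat.Coprime ((g⁻¹ : SL(2, ℤ)) 0 0).natAbs ((g⁻¹ : SL(2, ℤ)) 1 0).natAbs := by
    have := Int.isCoprime_iff_gcd_eq_one.mp hcop
    exact this
  show Nat.gcd ((d : ℤ) * (g⁻¹ : SL(2, ℤ)) 0 0).natAbs ((g⁻¹ : SL(2, ℤ)) 1 0).natAbs = _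
  rw [Int.natAbs_mul, Int.natAbs_natCast]
  exact Nat.Coprime.gcd_mul_right_cancel d hcop'

/-- **The order of `j(q^d)` at the cusp `g⁻¹∞`** (in `q_N`), times `d`. -/
theorem valCusp_jFormal_mul (N : ℕ) [NeZero N] (g : SL(2, ℤ)) (d : Dv N) :
    valCusp N g (jFormal N d) * (d.1 : ℤ)
      = -((N : ℤ) * ((Nat.gcd d.1 (lowerAbs g) : ℕ) : ℤ) ^ 2) := by
  have hN : 0 < N := Nat.pos_of_ne_zero (NeZero.ne N)
  have hd : 0 < d.1 := Nat.pos_of_ne_zero d.neZero.ne
  have hrep : IsRep N (jFormal N d) (MvPolynomial.X d) 1 := by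
    refine ⟨?_, ?_⟩
    · rw [map_one]
      exact one_ne_zero
    · rw [map_one, div_one, CuspTop.fm_X]
  obtain ⟨a, b, e, hae, -, ha, he, hgcd, htr⟩ := HNFMod.trans_Jabd g d.1 hd
  have h1 : trans g (1 : ℍ → ℂ) = fun _ => (1 : ℂ) := rfl
  have hdvd : e ∣ N := (Dvd.intro_left a hae).trans d.2
  rw [CuspTop.valCusp_eq N hrep (jFormal_ne_zero N d) g, map_one, CuspTop.ev_X, h1, htr,
    CuspTop.ordInf_const N hN 1 one_ne_zero, CuspTop.ordInf_Jabd N a b e hN ha he hdvd, sub_zero]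
  rw [gcd_mul_entry] at hgcd
  rw [← hgcd]
  obtain ⟨k, hk⟩ := hdvd
  have hk' : N / e = k := by rw [hk, Nat.mul_div_cancel_left k he]
  rw [hk', ← hae, hk]
  push_cast
  ring

/-- The same for the place `placeCusp N g`. -/
theorem ord_placeCusp_mul (N : ℕ) [NeZero N] (g : SL(2, ℤ)) (d : ℕ) (h : d ∣ N) :
    (PlaceDict.mulCusp N g : ℤ) * (PlaceDict.placeCusp N g).ord (jd N d h) * (d : ℤ)
      = -((N : ℤ) * ((Nat.gcd d (lowerAbs g) : ℕ) : ℤ) ^ 2) := by
  have h1 := PlaceDict.valCusp_eq_mul_ord N g (jd_ne_zero N d h)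
  have h2 := valCusp_jFormal_mul N g ⟨d, h⟩
  rw [← h1]
  exact h2

/-- Every generator has a pole at every cusp place. -/
theorem ord_placeCusp_neg (N : ℕ) [NeZero N] (g : SL(2, ℤ)) (d : ℕ) (h : d ∣ N) :
    (PlaceDict.placeCusp N g).ord (jd N d h) < 0 := by
  have h1 := ord_placeCusp_mul N g d h
  have hm : (0 : ℤ) < PlaceDict.mulCusp N g := by exact_mod_cast PlaceDict.mulCusp_pos N g
  have hd : (0 : ℤ) < d := by
    have : NeZero d := Dv.neZero (N := N) ⟨d, h⟩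
    exact_mod_cast Nat.pos_of_ne_zero (NeZero.ne d)
  have hN : (0 : ℤ) < N := by exact_mod_cast Nat.pos_of_ne_zero (NeZero.ne N)
  have hg : (0 : ℤ) < ((Nat.gcd d (lowerAbs g) : ℕ) : ℤ) := by
    have : 0 < Nat.gcd d (lowerAbs g) := Nat.gcd_pos_of_pos_left _ (by exact_mod_cast hd)
    exact_mod_cast this
  by_contra hcon
  rw [not_lt] at hcon
  have : 0 ≤ (PlaceDict.mulCusp N g : ℤ) * (PlaceDict.placeCusp N g).ord (jd N d h) * (d : ℤ) :=
    mul_nonneg (mul_nonneg hm.le hcon) hd.le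
  have h3 : (0 : ℤ) < (N : ℤ) * ((Nat.gcd d (lowerAbs g) : ℕ) : ℤ) ^ 2 := by positivity
  linarith

section CuspType

variable (N : ℕ) [NeZero N] (g : SL(2, ℤ)) {p : ℕ} (hp : p.Prime) (d : ℕ) (hpd : p * d ∣ N)

include hp in
theorem gcd_mul_of_dvd (hd : ¬ p ∣ d) (hc : p ∣ lowerAbs g) :
    Nat.gcd (p * d) (lowerAbs g) = p * Nat.gcd d (lowerAbs g) := by
  have hcop : Nat.Coprime p d := (Nat.Prime.coprime_iff_not_dvd hp).mpr hd
  rw [Nat.gcd_comm, Nat.Coprime.gcd_mul _ hcop, Nat.gcd_comm (lowerAbs g) p,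
    Nat.gcd_eq_left hc, Nat.gcd_comm (lowerAbs g) d]

include hp in
theorem gcd_mul_of_not_dvd (hd : ¬ p ∣ d) (hc : ¬ p ∣ lowerAbs g) :
    Nat.gcd (p * d) (lowerAbs g) = Nat.gcd d (lowerAbs g) := by
  have hcop : Nat.Coprime p d := (Nat.Prime.coprime_iff_not_dvd hp).mpr hd
  have hcop' : Nat.Coprime p (lowerAbs g) := (Nat.Prime.coprime_iff_not_dvd hp).mpr hc
  rw [Nat.gcd_comm, Nat.Coprime.gcd_mul _ hcop, Nat.gcd_comm (lowerAbs g) p,
    Nat.Coprime.gcd_eq_one hcop', one_mul, Nat.gcd_comm]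

include hp in
/-- `p ∣ c`: the cusp is "of type `∞`" at `p`. -/
theorem ord_placeCusp_of_dvd (hd : ¬ p ∣ d) (hc : p ∣ lowerAbs g) :
    (PlaceDict.placeCusp N g).ord (jd N (p * d) hpd)
      = p * (PlaceDict.placeCusp N g).ord (jd N d ((Dvd.intro_left p rfl).trans hpd)) := by
  have h1 := ord_placeCusp_mul N g (p * d) hpd
  have h2 := ord_placeCusp_mul N g d ((Dvd.intro_left p rfl).trans hpd)
  rw [gcd_mul_of_dvd g hp d hd hc] at h1
  have hm : (0 : ℤ) < PlaceDict.mulCusp N g := by exact_mod_cast PlaceDict.mulCusp_pos N g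
  have hp0 : (0 : ℤ) < p := by exact_mod_cast hp.pos
  have hd0 : (0 : ℤ) < d := by
    have : NeZero d := Dv.neZero (N := N) ⟨d, (Dvd.intro_left p rfl).trans hpd⟩
    exact_mod_cast Nat.pos_of_ne_zero (NeZero.ne d)
  have hne : (PlaceDict.mulCusp N g : ℤ) * (p : ℤ) * (d : ℤ) ≠ 0 := by positivity
  apply mul_left_cancel₀ hne
  push_cast at h1 h2 ⊢
  linear_combination h1 - (p : ℤ) ^ 2 * h2

include hp in
/-- `p ∤ c`: the cusp is "of type `0`" at `p`. -/
theorem ord_placeCusp_of_not_dvd (hd : ¬ p ∣ d) (hc : ¬ p ∣ lowerAbs g) :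
    (PlaceDict.placeCusp N g).ord (jd N d ((Dvd.intro_left p rfl).trans hpd))
      = p * (PlaceDict.placeCusp N g).ord (jd N (p * d) hpd) := by
  have h1 := ord_placeCusp_mul N g (p * d) hpd
  have h2 := ord_placeCusp_mul N g d ((Dvd.intro_left p rfl).trans hpd)
  rw [gcd_mul_of_not_dvd g hp d hd hc] at h1
  have hm : (0 : ℤ) < PlaceDict.mulCusp N g := by exact_mod_cast PlaceDict.mulCusp_pos N g
  have hd0 : (0 : ℤ) < d := by
    have : NeZero d := Dv.neZero (N := N) ⟨d, (Dvd.intro_left p rfl).trans hpd⟩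
    exact_mod_cast Nat.pos_of_ne_zero (NeZero.ne d)
  have hne : (PlaceDict.mulCusp N g : ℤ) * (d : ℤ) ≠ 0 := by positivity
  apply mul_left_cancel₀ hne
  push_cast at h1 h2 ⊢
  linear_combination h2 - h1

end CuspType

/-- A place at which some generator `j(q^d)` has a pole is a cusp place. -/
theorem exists_placeCusp_of_ord_neg (N : ℕ) [NeZero N] (W : Place Qb (FN N)) (d : ℕ) (h : d ∣ N)
    (hW : W.ord (jd N d h) < 0) : ∃ g : SL(2, ℤ), W = PlaceDict.placeCusp N g := by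
  rcases PlaceDict.exists_placePt_or_placeCusp N W with ⟨τ, hτ, rfl⟩ | hcusp
  · exfalso
    have h1 := (PlaceDict.ord_placePt_nonneg_iff N τ hτ (jd_ne_zero N d h)).mpr (by
      have hrep : IsRep N (jFormal N ⟨d, h⟩) (MvPolynomial.X (⟨d, h⟩ : Dv N)) 1 := by
        refine ⟨?_, ?_⟩
        · rw [map_one]
          exact one_ne_zero
        · rw [map_one, div_one, CuspTop.fm_X]
      show 0 ≤ valPt N τ (jFormal N ⟨d, h⟩)
      rw [PtTop.valPt_eq_of_isRep N τ hrep (jFormal_ne_zero N ⟨d, h⟩), map_one, JPt.ordAt_one,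
        sub_zero]
      exact OrdAt.ordAt_nonneg _ τ)
    omega
  · exact hcusp

section Transfer

variable (N : ℕ) [NeZero N] {p : ℕ} (hp : p.Prime) (W : Place Qb (FN N))
  (d d' : ℕ) (hpd : p * d ∣ N) (hpd' : p * d' ∣ N) (hd : ¬ p ∣ d) (hd' : ¬ p ∣ d')

include hp hd hd' in
/-- "Type `∞` at `p`" does not depend on the auxiliary divisor. -/
theorem type_transfer_inf
    (hW : W.ord (jd N d ((Dvd.intro_left p rfl).trans hpd)) < 0)
    (h : W.ord (jd N (p * d) hpd) = p * W.ord (jd N d ((Dvd.intro_left p rfl).trans hpd))) :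
    W.ord (jd N (p * d') hpd') = p * W.ord (jd N d' ((Dvd.intro_left p rfl).trans hpd')) := by
  obtain ⟨g, rfl⟩ := exists_placeCusp_of_ord_neg N W d _ hW
  by_cases hc : p ∣ lowerAbs g
  · exact ord_placeCusp_of_dvd N g hp d' hpd' hd' hc
  · exfalso
    have h2 := ord_placeCusp_of_not_dvd N g hp d hpd hd hc
    rw [h] at h2
    have hp2 : (2 : ℤ) ≤ p := by exact_mod_cast hp.two_le
    have h4 : (PlaceDict.placeCusp N g).ord (jd N d ((Dvd.intro_left p rfl).trans hpd))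
        * (1 - (p : ℤ) * p) = 0 := by linear_combination h2
    rcases mul_eq_zero.mp h4 with h5 | h5
    · omega
    · nlinarith

include hp hd hd' in
/-- "Type `0` at `p`" does not depend on the auxiliary divisor. -/
theorem type_transfer_zero
    (hW : W.ord (jd N d ((Dvd.intro_left p rfl).trans hpd)) < 0)
    (h : W.ord (jd N d ((Dvd.intro_left p rfl).trans hpd)) = p * W.ord (jd N (p * d) hpd)) :
    W.ord (jd N d' ((Dvd.intro_left p rfl).trans hpd')) = p * W.ord (jd N (p * d') hpd') := by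
  obtain ⟨g, rfl⟩ := exists_placeCusp_of_ord_neg N W d _ hW
  by_cases hc : p ∣ lowerAbs g
  · exfalso
    have h2 := ord_placeCusp_of_dvd N g hp d hpd hd hc
    rw [h2] at h
    have hp2 : (2 : ℤ) ≤ p := by exact_mod_cast hp.two_le
    have h4 : (PlaceDict.placeCusp N g).ord (jd N d ((Dvd.intro_left p rfl).trans hpd))
        * (1 - (p : ℤ) * p) = 0 := by linear_combination h
    rcases mul_eq_zero.mp h4 with h5 | h5
    · omega
    · nlinarith
  · exact ord_placeCusp_of_not_dvd N g hp d' hpd' hd' hc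

end Transfer

end Fermat.Agent.S15P.Cusp45
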