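import Mathlib
import Fermat.Agent.S15P.Cusp45.Val
import Fermat.Agent.S15P.Cusp45.Interface

/-!
# S15 / L12 : the two cusps of `X₀(p)` — orders, uniqueness, the `q`-expansion place

* `cuspOrders`  : `CuspOrders`;
* `cuspUnique`  : `CuspUnique`;
* `cuspInfEq`   : `CuspInfEq` (every level `N`).
-/

set_option autoImplicit false

noncomputable section

namespace Fermat.Agent.S15P.Cusp45

open AlgebraicCurve ModularCurve Fermat.Agent.S24 UpperHalfPlane CongruenceSubgroup ModularGroup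
open scoped MatrixGroups

local notation "Qb" => AlgebraicClosure ℚ

theorem jd_congr (N : ℕ) [NeZero N] {d d' : ℕ} (h : d = d') (hd : d ∣ N) (hd' : d' ∣ N) :
    jd N d hd = jd N d' hd' := by
  subst h
  rfl

theorem lowerAbs_one : lowerAbs (1 : SL(2, ℤ)) = 0 := by
  simp [lowerAbs]

theorem lowerAbs_S : lowerAbs (S : SL(2, ℤ)) = 1 := by
  simp [lowerAbs, Matrix.SpecialLinearGroup.coe_inv, ModularGroup.coe_S, Matrix.adjugate_fin_two]

theorem mem_Gamma0_iff_dvd_lowerAbs (N : ℕ) (g : SL(2, ℤ)) :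
    g ∈ Gamma0 N ↔ N ∣ lowerAbs g := by
  rw [← inv_mem_iff (H := Gamma0 N), Gamma0_mem, ZMod.intCast_zmod_eq_zero_iff_dvd,
    Int.natCast_dvd]
  rfl

/-- A cusp `g⁻¹∞` with `N ∣ c` is the cusp `∞`. -/
theorem placeCusp_eq_cuspInf (N : ℕ) [NeZero N] (g : SL(2, ℤ)) (h : N ∣ lowerAbs g) :
    PlaceDict.placeCusp N g = cuspInf N := by
  have h1 := PlaceDict.placeCusp_mul_Gamma0 N 1 g ((mem_Gamma0_iff_dvd_lowerAbs N g).mpr h)
  rwa [one_mul] at h1

/-- At a prime level, a cusp `g⁻¹∞` with `p ∤ c` is the cusp `0`. -/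
theorem placeCusp_eq_cuspZero (p : ℕ) [NeZero p] (hp : p.Prime) (g : SL(2, ℤ))
    (h : ¬ p ∣ lowerAbs g) : PlaceDict.placeCusp p g = cuspZero p := by
  have : Fact p.Prime := ⟨hp⟩
  symm
  rw [cuspZero, PlaceDict.placeCusp_eq_iff]
  set c : ℤ := (g⁻¹ : SL(2, ℤ)) 1 0 with hc
  set d : ℤ := (g⁻¹ : SL(2, ℤ)) 1 1 with hd
  have hc0 : ((c : ℤ) : ZMod p) ≠ 0 := by
    rw [Ne, ZMod.intCast_zmod_eq_zero_iff_dvd, Int.natCast_dvd]
    exact h
  set kz : ZMod p := -(d : ZMod p) / (c : ZMod p) with hkz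
  set k : ℤ := (kz.val : ℤ) with hk
  have hkz' : ((k : ℤ) : ZMod p) = kz := by
    rw [hk, Int.cast_natCast, ZMod.natCast_zmod_val]
  refine ⟨k, S⁻¹ * T ^ (-k) * g, ?_, by group⟩
  rw [← inv_mem_iff (H := Gamma0 p), Gamma0_mem]
  have hent : ((S⁻¹ * T ^ (-k) * g)⁻¹ : SL(2, ℤ)) 1 0 = c * k + d := by
    have e : (S⁻¹ * T ^ (-k) * g)⁻¹ = g⁻¹ * T ^ k * S := by group
    rw [e, Matrix.SpecialLinearGroup.coe_mul, Matrix.SpecialLinearGroup.coe_mul,
      ModularGroup.coe_T_zpow, ModularGroup.coe_S]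
    simp [Matrix.mul_apply, Fin.sum_univ_two, hc, hd]
  rw [hent]
  push_cast
  rw [hkz', hkz]
  field_simp
  ring

theorem cuspWidth_one (N : ℕ) [NeZero N] : PlaceDict.cuspWidth N 1 = 1 := by
  have h := (PlaceDict.cuspWidth_dvd_iff N 1 1).mpr (by
    rw [mem_Gamma0_iff_dvd_lowerAbs]
    have : lowerAbs ((1 : SL(2, ℤ))⁻¹ * T ^ 1 * 1) = 0 := by
      simp [lowerAbs, Matrix.SpecialLinearGroup.coe_inv, ModularGroup.coe_T,
        Matrix.adjugate_fin_two]
    rw [this]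
    exact dvd_zero N)
  exact Nat.dvd_one.mp h

theorem cuspWidth_S (N : ℕ) [NeZero N] : PlaceDict.cuspWidth N S = N := by
  have key : ∀ h : ℕ, PlaceDict.cuspWidth N S ∣ h ↔ N ∣ h := by
    intro h
    rw [PlaceDict.cuspWidth_dvd_iff, mem_Gamma0_iff_dvd_lowerAbs]
    have : lowerAbs (S⁻¹ * T ^ h * S) = h := by
      have e : ((S⁻¹ * T ^ h * S)⁻¹ : SL(2, ℤ)) = S⁻¹ * T ^ (-(h : ℤ)) * S := by
        rw [zpow_neg, zpow_natCast]
        group
      rw [lowerAbs, e, Matrix.SpecialLinearGroup.coe_mul, Matrix.SpecialLinearGroup.coe_mul,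
        ModularGroup.coe_T_zpow, Matrix.SpecialLinearGroup.coe_inv, ModularGroup.coe_S]
      simp [Matrix.mul_apply, Fin.sum_univ_two, Matrix.adjugate_fin_two]
    rw [this]
  exact Nat.dvd_antisymm ((key N).mpr dvd_rfl) ((key _).mp dvd_rfl)

theorem ord_jd_one_cuspInf (N : ℕ) [NeZero N] : (cuspInf N).ord (jd N 1 (one_dvd N)) = -1 := by
  have h := PlaceDict.ord_jBar_inv_placeCusp N 1
  rw [Place.ord_inv, cuspWidth_one] at h
  have e : jBar N = jd N 1 (one_dvd N) := rfl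
  rw [e] at h
  show (PlaceDict.placeCusp N 1).ord (jd N 1 (one_dvd N)) = -1
  omega

theorem ord_jd_one_cuspZero (N : ℕ) [NeZero N] :
    (cuspZero N).ord (jd N 1 (one_dvd N)) = -(N : ℤ) := by
  have h := PlaceDict.ord_jBar_inv_placeCusp N S
  rw [Place.ord_inv, cuspWidth_S] at h
  have e : jBar N = jd N 1 (one_dvd N) := rfl
  rw [e] at h
  show (PlaceDict.placeCusp N S).ord (jd N 1 (one_dvd N)) = -(N : ℤ)
  omega

/-- **`CuspOrders`.** -/
theorem cuspOrders : CuspOrders := by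
  intro p _ hp
  have h1 := ord_jd_one_cuspInf p
  have h2 := ord_jd_one_cuspZero p
  have h3 := ord_placeCusp_of_dvd p 1 hp 1 (by rw [mul_one]) hp.not_dvd_one
    (by rw [lowerAbs_one]; exact dvd_zero p)
  have h4 := ord_placeCusp_of_not_dvd p S hp 1 (by rw [mul_one]) hp.not_dvd_one
    (by rw [lowerAbs_S]; exact hp.not_dvd_one)
  rw [jd_congr p (mul_one p) _ dvd_rfl] at h3 h4
  have h3' : (cuspInf p).ord (jd p p dvd_rfl) = p * (cuspInf p).ord (jd p 1 (one_dvd p)) := h3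
  have h4' : (cuspZero p).ord (jd p 1 (one_dvd p)) = p * (cuspZero p).ord (jd p p dvd_rfl) := h4
  refine ⟨h1, ?_, h2, ?_⟩
  · rw [h3', h1]
    ring
  · rw [h2] at h4'
    have hp0 : (p : ℤ) ≠ 0 := by exact_mod_cast hp.ne_zero
    apply mul_left_cancel₀ hp0
    rw [← h4']
    ring

theorem cuspInf_ne_cuspZero (p : ℕ) [NeZero p] (hp : p.Prime) : cuspInf p ≠ cuspZero p := by
  intro h
  obtain ⟨h1, -, h3, -⟩ := cuspOrders p hp
  rw [h, h3] at h1
  have := hp.two_le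
  omega

/-- **`CuspUnique`.** -/
theorem cuspUnique : CuspUnique := by
  intro p _ hp x
  have hp2 : (2 : ℤ) ≤ p := by exact_mod_cast hp.two_le
  refine ⟨⟨fun h => ?_, fun h => ?_⟩, fun h => ?_⟩
  · obtain ⟨g, rfl⟩ := exists_placeCusp_of_ord_neg p x p dvd_rfl h
    exact ord_placeCusp_neg p g 1 (one_dvd p)
  · obtain ⟨g, rfl⟩ := exists_placeCusp_of_ord_neg p x 1 (one_dvd p) h
    exact ord_placeCusp_neg p g p dvd_rfl
  · obtain ⟨g, rfl⟩ := exists_placeCusp_of_ord_neg p x 1 (one_dvd p) h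
    by_cases hc : p ∣ lowerAbs g
    · have hx := placeCusp_eq_cuspInf p g hc
      have h3 := ord_placeCusp_of_dvd p g hp 1 (by rw [mul_one]) hp.not_dvd_one hc
      rw [jd_congr p (mul_one p) _ dvd_rfl] at h3
      refine ⟨Or.inl hx, fun _ => hx, fun h5 => ?_⟩
      exfalso
      have h3' : (PlaceDict.placeCusp p g).ord (jd p p dvd_rfl)
          = p * (PlaceDict.placeCusp p g).ord (jd p 1 (one_dvd p)) := h3
      rw [h3'] at h5
      have h6 : (PlaceDict.placeCusp p g).ord (jd p 1 (one_dvd p)) * (1 - (p : ℤ) * p) = 0 := by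
        linear_combination h5
      rcases mul_eq_zero.mp h6 with h7 | h7
      · omega
      · nlinarith
    · have hx := placeCusp_eq_cuspZero p hp g hc
      have h3 := ord_placeCusp_of_not_dvd p g hp 1 (by rw [mul_one]) hp.not_dvd_one hc
      rw [jd_congr p (mul_one p) _ dvd_rfl] at h3
      refine ⟨Or.inr hx, fun h5 => ?_, fun _ => hx⟩
      exfalso
      have h3' : (PlaceDict.placeCusp p g).ord (jd p 1 (one_dvd p))
          = p * (PlaceDict.placeCusp p g).ord (jd p p dvd_rfl) := h3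
      rw [h5] at h3'
      have h6 : (PlaceDict.placeCusp p g).ord (jd p 1 (one_dvd p)) * (1 - (p : ℤ) * p) = 0 := by
        linear_combination h3'
      rcases mul_eq_zero.mp h6 with h7 | h7
      · omega
      · nlinarith

/-- The `q`-order of `j(q^d)`. -/
theorem ord_jd_placeInfL (N : ℕ) [NeZero N] (d : ℕ) (h : d ∣ N) :
    (Fermat.Agent.Lib.FF.PlaceInf.placeInfL Qb N).ord (jd N d h) = -(d : ℤ) := by
  have hd : d ≠ 0 := (Dv.neZero (N := N) ⟨d, h⟩).ne
  rw [Fermat.Agent.Lib.FF.PlaceInf.placeInfL_ord Qb N _ (jd_ne_zero N d h)]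
  have h1 := Fermat.Agent.ESJ.Cong.ConjAnalytic.coe_jFormal N ⟨d, h⟩
  have h2 := Fermat.Agent.S28.ValInd.order_Jd (K := KQ) d hd
  rw [← h2, ← h1]
  rfl

/-- **`CuspInfEq`**: the cusp `∞` is the `q`-expansion place. -/
theorem cuspInfEq : CuspInfEq := by
  intro N _
  have hN : (0 : ℤ) < N := by exact_mod_cast Nat.pos_of_ne_zero (NeZero.ne N)
  have h1 := ord_jd_placeInfL N 1 (one_dvd N)
  have hN' := ord_jd_placeInfL N N dvd_rfl
  obtain ⟨g, hg⟩ := exists_placeCusp_of_ord_neg N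
    (Fermat.Agent.Lib.FF.PlaceInf.placeInfL Qb N) 1 (one_dvd N) (by rw [h1]; norm_num)
  rw [hg] at h1 hN' ⊢
  have e1 := ord_placeCusp_mul N g 1 (one_dvd N)
  have eN := ord_placeCusp_mul N g N dvd_rfl
  rw [h1, Nat.gcd_one_left] at e1
  rw [hN'] at eN
  have hm : (PlaceDict.mulCusp N g : ℤ) = N := by
    push_cast at e1
    linarith
  rw [hm] at eN
  have hsq : ((Nat.gcd N (lowerAbs g) : ℕ) : ℤ) ^ 2 = (N : ℤ) ^ 2 := by
    have : (N : ℤ) * ((Nat.gcd N (lowerAbs g) : ℕ) : ℤ) ^ 2 = (N : ℤ) * (N : ℤ) ^ 2 := by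
      linear_combination eN
    exact mul_left_cancel₀ hN.ne' this
  have hgcd : Nat.gcd N (lowerAbs g) = N := by
    have h0 : (0 : ℤ) ≤ ((Nat.gcd N (lowerAbs g) : ℕ) : ℤ) := Int.natCast_nonneg _
    have := (sq_eq_sq₀ h0 hN.le).mp hsq
    exact_mod_cast this
  symm
  exact placeCusp_eq_cuspInf N g (Nat.gcd_eq_left_iff_dvd.mp hgcd)

end Fermat.Agent.S15P.Cusp45
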