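import Mathlib
import Fermat.Agent.S15P.Cusp45.Level

/-!
# S15 / L12 : the two cusps of `X₀(p)` and the cuspidal class are Galois-fixed

* `smul_jd`    : `j(q^d)` is fixed by the arithmetic Galois action (rational coefficients);
* `cuspGalois` : `CuspGalois`.
-/

set_option autoImplicit false

noncomputable section

namespace Fermat.Agent.S15P.Cusp45

open AlgebraicCurve ModularCurve Fermat.Agent.S24

local notation "Qb" => AlgebraicClosure ℚ

theorem smul_jd (N : ℕ) [NeZero N] (d : ℕ) (h : d ∣ N) (σ : Qb ≃ₐ[ℚ] Qb) :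
    arithmeticGalois (modularFunctionFieldFull N) σ • jd N d h = jd N d h := by
  apply Subtype.ext
  rw [coe_arithmeticGalois_smul]
  show coeffMap (σ : Qb →+* Qb) ((jFormal N ⟨d, h⟩ : FN N) : LaurentSeries KQ)
    = ((jFormal N ⟨d, h⟩ : FN N) : LaurentSeries KQ)
  rw [Fermat.Agent.ESJ.Cong.ConjAnalytic.coe_jFormal, Fermat.Agent.S28.TD.coeffMap_Jd]

theorem smul_cuspInf (N : ℕ) [NeZero N] (σ : Qb ≃ₐ[ℚ] Qb) :
    arithmeticGalois (modularFunctionFieldFull N) σ • cuspInf N = cuspInf N := by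
  rw [cuspInfEq N]
  exact Fermat.Agent.Lib.FF.PlaceInf.arithmeticGalois_smul_placeInfL Qb N σ

theorem ord_smul_jd (N : ℕ) [NeZero N] (σ : Qb ≃ₐ[ℚ] Qb) (v : Place Qb (FN N)) (d : ℕ)
    (h : d ∣ N) :
    (arithmeticGalois (modularFunctionFieldFull N) σ • v).ord (jd N d h) = v.ord (jd N d h) := by
  have h5 := SemilinearAut.ord_smul (arithmeticGalois (modularFunctionFieldFull N) σ) v (jd N d h)
  rw [smul_jd] at h5
  exact h5

theorem smul_cuspZero (p : ℕ) [NeZero p] (hp : p.Prime) (σ : Qb ≃ₐ[ℚ] Qb) :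
    arithmeticGalois (modularFunctionFieldFull p) σ • cuspZero p = cuspZero p := by
  obtain ⟨-, -, h3, h4⟩ := cuspOrders p hp
  obtain ⟨y, hy⟩ : ∃ y : Place Qb (FN p),
      y = arithmeticGalois (modularFunctionFieldFull p) σ • cuspZero p := ⟨_, rfl⟩
  have e1 : y.ord (jd p 1 (one_dvd p)) = -(p : ℤ) := by
    rw [hy, ord_smul_jd, h3]
  have ep : y.ord (jd p p dvd_rfl) = -1 := by
    rw [hy, ord_smul_jd, h4]
  have hp0 : (0 : ℤ) < p := by exact_mod_cast hp.pos
  have hneg : y.ord (jd p 1 (one_dvd p)) < 0 := by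
    rw [e1]
    omega
  have hrel : y.ord (jd p 1 (one_dvd p)) = p * y.ord (jd p p dvd_rfl) := by
    rw [e1, ep]
    ring
  rw [← hy]
  exact ((cuspUnique p hp y).2 hneg).2.2 hrel

theorem smul_c0_of (N : ℕ) [NeZero N] (σ : Qb ≃ₐ[ℚ] Qb)
    (hinf : arithmeticGalois (modularFunctionFieldFull N) σ • cuspInf N = cuspInf N)
    (hzero : arithmeticGalois (modularFunctionFieldFull N) σ • cuspZero N = cuspZero N) :
    σ • c0 N = c0 N := by
  rw [galois_smul_pic0_def]
  show arithmeticGalois (modularFunctionFieldFull N) σ • Pic0.mk _ = Pic0.mk _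
  rw [SemilinearAut.pic0_smul_mk]
  congr 1
  apply Subtype.ext
  rw [SemilinearAut.coe_degZeroSMulHom]
  show arithmeticGalois (modularFunctionFieldFull N) σ • cuspDiv N = cuspDiv N
  rw [cuspDiv, smul_sub, SemilinearAut.smul_single, SemilinearAut.smul_single, hinf, hzero]

/-- **`CuspGalois`.** -/
theorem cuspGalois : CuspGalois := fun p _ hp σ =>
  ⟨smul_cuspInf p σ, smul_cuspZero p hp σ,
    smul_c0_of p σ (smul_cuspInf p σ) (smul_cuspZero p hp σ)⟩

end Fermat.Agent.S15P.Cusp45
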