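import Mathlib
import Fermat.Agent.S15P.Cusp45.Level
import Fermat.Agent.ESJ.HeckeInputs
import Fermat.Agent.ESJ.Cong.LevelDeg
import Fermat.Agent.ESJ.LevelDesc.BaseChange

/-!
# S15 / L12 : `T_q c₀ = (1 + q) c₀`

`T_q = α_* ∘ β^*` on divisors (`α, β : F_p → F_{pq}` the two degeneracy maps).  A place `W` of
`F_{pq}` lying over the cusp `∞` (resp. `0`) of `X₀(p)` along `β` lies over the SAME cusp along
`α` (`restrict_alpha_of_restrict_beta` — both say "`p ∣ c`", resp. "`p ∤ c`", for the cusp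
`W = g⁻¹∞`, `c = (g⁻¹)₁₀`).  Hence `α_* β^* (P)` is supported on `P` and has degree
`[F_{pq} : β F_p] = q + 1`:

* `correspondence_single_cusp` : `α_* β^* (P) = (q + 1) · P` for `P = (∞), (0)`;
* `cuspHecke` : `CuspHecke`.
-/

set_option autoImplicit false
set_option linter.style.haveILetI false

noncomputable section

namespace Fermat.Agent.S15P.Cusp45

open AlgebraicCurve ModularCurve Fermat.Agent.S24 Fermat.Agent.ESJ.HeckeInputs

local notation "Qb" => AlgebraicClosure ℚ

theorem alpha_jd (N ℓ : ℕ) [NeZero N] [NeZero ℓ] (d : ℕ) (h : d ∣ N) :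
    heckeAlphaBar Qb N ℓ (jd N d h) = jd (N * ℓ) d (h.mul_right ℓ) := by
  apply Subtype.ext
  rw [coe_heckeAlphaBar]
  show ((jFormal N ⟨d, h⟩ : FN N) : LaurentSeries KQ)
    = ((jFormal (N * ℓ) ⟨d, h.mul_right ℓ⟩ : FN (N * ℓ)) : LaurentSeries KQ)
  rw [Fermat.Agent.ESJ.Cong.ConjAnalytic.coe_jFormal,
    Fermat.Agent.ESJ.Cong.ConjAnalytic.coe_jFormal]

theorem beta_jd (N ℓ : ℕ) [NeZero N] [NeZero ℓ] (d : ℕ) (h : d ∣ N) :
    heckeBetaBar Qb N ℓ (jd N d h)
      = jd (N * ℓ) (ℓ * d) (by rw [mul_comm N ℓ]; exact Nat.mul_dvd_mul_left ℓ h) := by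
  apply Subtype.ext
  rw [coe_heckeBetaBar]
  show qExpand KQ ℓ ((jFormal N ⟨d, h⟩ : FN N) : LaurentSeries KQ)
    = ((jFormal (N * ℓ) ⟨ℓ * d, _⟩ : FN (N * ℓ)) : LaurentSeries KQ)
  rw [Fermat.Agent.ESJ.Cong.ConjAnalytic.coe_jFormal,
    Fermat.Agent.ESJ.Cong.ConjAnalytic.coe_jFormal]
  exact Fermat.Agent.S28.TD.qExpand_Jd KQ ℓ d (Dv.neZero (N := N) ⟨d, h⟩).ne

/-- Poles of one generator are poles of all generators. -/
theorem ord_jd_neg_of_neg (N : ℕ) [NeZero N] (W : Place Qb (FN N)) (d d' : ℕ) (h : d ∣ N)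
    (h' : d' ∣ N) (hW : W.ord (jd N d h) < 0) : W.ord (jd N d' h') < 0 := by
  obtain ⟨g, rfl⟩ := exists_placeCusp_of_ord_neg N W d h hW
  exact ord_placeCusp_neg N g d' h'

section Fibre

variable (p : ℕ) [NeZero p] (hp : p.Prime) (q : ℕ) [NeZero q] (hq : q.Prime) (hqp : q ≠ p)
  (W : Place Qb (FN (p * q)))

include hp hq hqp in
/-- Over the cusp `∞` along `β` ⟹ over the cusp `∞` along `α`. -/
theorem restrict_alpha_of_restrict_beta_inf
    (hW : W.restrictAlong (heckeBetaBar Qb p q) (heckeBetaBarIntegral p q) = cuspInf p) :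
    W.restrictAlong (heckeAlphaBar Qb p q) (heckeAlphaBarIntegral p q) = cuspInf p := by
  obtain ⟨o1, op, -, -⟩ := cuspOrders p hp
  have he := Fermat.Agent.ESJ.LevelDesc.ramificationIndexAlong_pos (heckeBetaBar Qb p q)
    (heckeBetaBarIntegral p q) W
  have he' := Fermat.Agent.ESJ.LevelDesc.ramificationIndexAlong_pos (heckeAlphaBar Qb p q)
    (heckeAlphaBarIntegral p q) W
  have b1 := Place.ord_restrictAlong (heckeBetaBar Qb p q) (heckeBetaBarIntegral p q) W
    (jd p 1 (one_dvd p))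
  have bp := Place.ord_restrictAlong (heckeBetaBar Qb p q) (heckeBetaBarIntegral p q) W
    (jd p p dvd_rfl)
  rw [hW, o1, beta_jd, jd_congr (p * q) (mul_one q) _ (dvd_mul_left q p)] at b1
  rw [hW, op, beta_jd, jd_congr (p * q) (mul_comm q p) _ dvd_rfl] at bp
  have hpq : ¬ p ∣ q := fun h => hqp ((Nat.prime_dvd_prime_iff_eq hp hq).mp h).symm
  have hWq : W.ord (jd (p * q) q (dvd_mul_left q p)) < 0 := by
    rw [b1]
    have : (0 : ℤ) < (W.ramificationIndexAlong (heckeBetaBar Qb p q) : ℤ) := by exact_mod_cast he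
    linarith
  have T := type_transfer_inf (p * q) hp W q 1 dvd_rfl (by rw [mul_one]; exact dvd_mul_right p q)
    hpq hp.not_dvd_one hWq (by rw [bp, b1]; ring)
  rw [jd_congr (p * q) (mul_one p) _ (dvd_mul_right p q)] at T
  have a1 := Place.ord_restrictAlong (heckeAlphaBar Qb p q) (heckeAlphaBarIntegral p q) W
    (jd p 1 (one_dvd p))
  have ap := Place.ord_restrictAlong (heckeAlphaBar Qb p q) (heckeAlphaBarIntegral p q) W
    (jd p p dvd_rfl)
  rw [alpha_jd] at a1 ap
  have hW1 : W.ord (jd (p * q) 1 (one_dvd _)) < 0 := ord_jd_neg_of_neg (p * q) W q 1 _ _ hWq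
  have he'0 : (0 : ℤ) < (W.ramificationIndexAlong (heckeAlphaBar Qb p q) : ℤ) := by
    exact_mod_cast he'
  have hX1 : (W.restrictAlong (heckeAlphaBar Qb p q) (heckeAlphaBarIntegral p q)).ord
      (jd p 1 (one_dvd p)) < 0 := by
    by_contra hcon
    rw [not_lt] at hcon
    have : 0 ≤ W.ord (jd (p * q) 1 (one_dvd _)) := by
      rw [a1]
      exact mul_nonneg he'0.le hcon
    omega
  have hXp : (W.restrictAlong (heckeAlphaBar Qb p q) (heckeAlphaBarIntegral p q)).ord
      (jd p p dvd_rfl)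
      = p * (W.restrictAlong (heckeAlphaBar Qb p q) (heckeAlphaBarIntegral p q)).ord
        (jd p 1 (one_dvd p)) := by
    apply mul_left_cancel₀ he'0.ne'
    rw [← ap, T, a1]
    ring
  exact ((cuspUnique p hp _).2 hX1).2.1 hXp

include hp hq hqp in
/-- Over the cusp `0` along `β` ⟹ over the cusp `0` along `α`. -/
theorem restrict_alpha_of_restrict_beta_zero
    (hW : W.restrictAlong (heckeBetaBar Qb p q) (heckeBetaBarIntegral p q) = cuspZero p) :
    W.restrictAlong (heckeAlphaBar Qb p q) (heckeAlphaBarIntegral p q) = cuspZero p := by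
  obtain ⟨-, -, o1, op⟩ := cuspOrders p hp
  have he := Fermat.Agent.ESJ.LevelDesc.ramificationIndexAlong_pos (heckeBetaBar Qb p q)
    (heckeBetaBarIntegral p q) W
  have he' := Fermat.Agent.ESJ.LevelDesc.ramificationIndexAlong_pos (heckeAlphaBar Qb p q)
    (heckeAlphaBarIntegral p q) W
  have b1 := Place.ord_restrictAlong (heckeBetaBar Qb p q) (heckeBetaBarIntegral p q) W
    (jd p 1 (one_dvd p))
  have bp := Place.ord_restrictAlong (heckeBetaBar Qb p q) (heckeBetaBarIntegral p q) W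
    (jd p p dvd_rfl)
  rw [hW, o1, beta_jd, jd_congr (p * q) (mul_one q) _ (dvd_mul_left q p)] at b1
  rw [hW, op, beta_jd, jd_congr (p * q) (mul_comm q p) _ dvd_rfl] at bp
  have hpq : ¬ p ∣ q := fun h => hqp ((Nat.prime_dvd_prime_iff_eq hp hq).mp h).symm
  have hp0 : (0 : ℤ) < p := by exact_mod_cast hp.pos
  have he0 : (0 : ℤ) < (W.ramificationIndexAlong (heckeBetaBar Qb p q) : ℤ) := by exact_mod_cast he
  have hWq : W.ord (jd (p * q) q (dvd_mul_left q p)) < 0 := by
    rw [b1]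
    nlinarith
  have T := type_transfer_zero (p * q) hp W q 1 dvd_rfl (by rw [mul_one]; exact dvd_mul_right p q)
    hpq hp.not_dvd_one hWq (by rw [bp, b1]; ring)
  rw [jd_congr (p * q) (mul_one p) _ (dvd_mul_right p q)] at T
  have a1 := Place.ord_restrictAlong (heckeAlphaBar Qb p q) (heckeAlphaBarIntegral p q) W
    (jd p 1 (one_dvd p))
  have ap := Place.ord_restrictAlong (heckeAlphaBar Qb p q) (heckeAlphaBarIntegral p q) W
    (jd p p dvd_rfl)
  rw [alpha_jd] at a1 ap
  have hW1 : W.ord (jd (p * q) 1 (one_dvd _)) < 0 := ord_jd_neg_of_neg (p * q) W q 1 _ _ hWq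
  have he'0 : (0 : ℤ) < (W.ramificationIndexAlong (heckeAlphaBar Qb p q) : ℤ) := by
    exact_mod_cast he'
  have hX1 : (W.restrictAlong (heckeAlphaBar Qb p q) (heckeAlphaBarIntegral p q)).ord
      (jd p 1 (one_dvd p)) < 0 := by
    by_contra hcon
    rw [not_lt] at hcon
    have : 0 ≤ W.ord (jd (p * q) 1 (one_dvd _)) := by
      rw [a1]
      exact mul_nonneg he'0.le hcon
    omega
  have hXp : (W.restrictAlong (heckeAlphaBar Qb p q) (heckeAlphaBarIntegral p q)).ord
      (jd p 1 (one_dvd p))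
      = p * (W.restrictAlong (heckeAlphaBar Qb p q) (heckeAlphaBarIntegral p q)).ord
        (jd p p dvd_rfl) := by
    apply mul_left_cancel₀ he'0.ne'
    rw [← a1, T, ap]
    ring
  exact ((cuspUnique p hp _).2 hX1).2.2 hXp

end Fibre

section Corr

variable (p : ℕ) [NeZero p] (q : ℕ) [NeZero q] (hq : q.Prime) (hqp : ¬ q ∣ p)

include hq hqp in
/-- `α_* β^* (P) = (q + 1) · P` for a place `P` whose `β`-fibre restricts to `P` along `α`. -/
theorem correspondence_single_of_fibre (P : Place Qb (FN p))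
    (hP : ∀ W : Place Qb (FN (p * q)),
      W.restrictAlong (heckeBetaBar Qb p q) (heckeBetaBarIntegral p q) = P →
      W.restrictAlong (heckeAlphaBar Qb p q) (heckeAlphaBarIntegral p q) = P) :
    haveI := hasPrincipalDivisors_bar (p * q)
    Divisor.correspondence (heckeBetaBar Qb p q) (heckeAlphaBar Qb p q)
      (heckeBetaBarIntegral p q) (heckeAlphaBarIntegral p q) (Finsupp.single P 1)
      = Finsupp.single P ((q : ℤ) + 1) := by
  haveI := hasPrincipalDivisors_bar (p * q)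
  have hβ : (heckeBetaBar Qb p q).toRingHom.IsIntegral := heckeBetaBarIntegral p q
  have hα : (heckeAlphaBar Qb p q).toRingHom.IsIntegral := heckeAlphaBarIntegral p q
  have hP' : ∀ W : Place Qb (FN (p * q)),
      W.restrictAlong (heckeBetaBar Qb p q) hβ = P →
      W.restrictAlong (heckeAlphaBar Qb p q) hα = P := hP
  show Divisor.correspondence (heckeBetaBar Qb p q) (heckeAlphaBar Qb p q) hβ hα
    (Finsupp.single P 1) = Finsupp.single P ((q : ℤ) + 1)
  have hsum : Divisor.correspondence (heckeBetaBar Qb p q) (heckeAlphaBar Qb p q) hβ hα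
      (Finsupp.single P 1)
      = Finsupp.single P
        (∑ W ∈ Place.fiberAlong (heckeBetaBar Qb p q) hβ P,
          ((1 : ℤ) * W.ramificationIndexAlong (heckeBetaBar Qb p q)) *
            W.inertiaDegAlong (heckeAlphaBar Qb p q) hα) := by
    rw [Divisor.correspondence_apply, Divisor.pullbackAlong_single, map_sum,
      Finsupp.single_finsetSum]
    refine Finset.sum_congr rfl fun W hW => ?_
    rw [Divisor.pushforwardAlong_single, hP' W (Place.mem_fiberAlong.mp hW)]
  have hFI : FundamentalIdentityAlong Qb (heckeBetaBar Qb p q) hβ :=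
    (heckeInputsAlong_bar p q).snd.snd.snd.snd.1
  have hdeg := Divisor.degree_correspondence (heckeBetaBar Qb p q) (heckeAlphaBar Qb p q)
    hβ hα hFI (Finsupp.single P 1)
  rw [hsum, Divisor.degree_single, Divisor.degree_single, deg_eq_one_bar,
    Fermat.Agent.ESJ.Cong.LevelDeg.finrank_beta_of_not_dvd Qb p q hq hqp] at hdeg
  rw [hsum]
  congr 1
  push_cast at hdeg
  linarith

end Corr

/-- `T_q` on a class of `J₀(M)(ℚ̄)` (as main's `TR.Hecke.RedEq.heckeOperatorBar_mk`). -/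
theorem heckeOperatorBar_mk' (M : ℕ) [NeZero M] (q : Nat.Primes)
    (D : Divisor.degZero (K := Qb) (F := modularFunctionFieldBar M)) :
    haveI : NeZero (q : ℕ) := ⟨q.2.ne_zero⟩
    haveI := hasPrincipalDivisors_bar (M * (q : ℕ))
    heckeOperatorBar M q (Pic0.mk D) =
      Pic0.mk (Pic0.degZeroCorrespondence (heckeBetaBar Qb M q) (heckeAlphaBar Qb M q)
        (heckeBetaBarIntegral M q) (heckeAlphaBarIntegral M q)
        (heckeInputsAlong_bar M q).snd.snd.snd.snd.1 D) := by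
  haveI : NeZero (q : ℕ) := ⟨q.2.ne_zero⟩
  obtain ⟨hα, hβ, hP, hfin, hFI, hN⟩ := heckeInputsAlong_bar M (q : ℕ)
  haveI := hP
  rw [heckeOperatorBar_apply]
  exact congrFun (congrArg DFunLike.coe (heckeOperatorAlong_eq hα hβ hFI hfin hN)) (Pic0.mk D)

/-- **`CuspHecke`**: `T_q c₀ = (1 + q) c₀`. -/
theorem cuspHecke : CuspHecke := by
  intro p _ hp q hqp
  haveI : NeZero (q : ℕ) := ⟨q.2.ne_zero⟩
  haveI := hasPrincipalDivisors_bar (p * (q : ℕ))
  have hqp' : ¬ (q : ℕ) ∣ p := fun h => hqp ((Nat.prime_dvd_prime_iff_eq q.2 hp).mp h)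
  have hdiv : Divisor.correspondence (heckeBetaBar Qb p q) (heckeAlphaBar Qb p q)
      (heckeBetaBarIntegral p q) (heckeAlphaBarIntegral p q) (cuspDiv p)
      = (1 + (q : ℕ)) • cuspDiv p := by
    rw [cuspDiv, map_sub,
      correspondence_single_of_fibre p q q.2 hqp' (cuspZero p)
        (fun W => restrict_alpha_of_restrict_beta_zero p hp q q.2 hqp W),
      correspondence_single_of_fibre p q q.2 hqp' (cuspInf p)
        (fun W => restrict_alpha_of_restrict_beta_inf p hp q q.2 hqp W),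
      smul_sub, Finsupp.smul_single, Finsupp.smul_single]
    congr 2 <;> simp <;> ring
  have hmk : (1 + (q : ℕ)) • (Pic0.mk ⟨cuspDiv p, cuspDiv_mem_degZero p⟩ : JZero p)
      = Pic0.mk ((1 + (q : ℕ)) • (⟨cuspDiv p, cuspDiv_mem_degZero p⟩ :
          Divisor.degZero (K := Qb) (F := FN p))) :=
    (map_nsmul (QuotientAddGroup.mk' _) _ _).symm
  rw [c0, heckeOperatorBar_mk', hmk]
  congr 1
  apply Subtype.ext
  exact hdiv

end Fermat.Agent.S15P.Cusp45
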