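import Mathlib
import Fermat.Agent.S15P.Cusp45.Level
import Fermat.Agent.Lib.FF.RRNonSpecial
import Fermat.Agent.Lib.FF.CanonicalFF1
import Fermat.Agent.Lib.FF.RRModular
import Fermat.Agent.BAD.GenusIneq
import Fermat.Agent.S20.IndexGamma0

/-!
# S15 / L12 : the cuspidal class is not zero when `X₀(p)` has positive genus

* `genusFormula_prime` : `g(X₀(p)) = (p + 1)/12 − ν₂/4 − ν₃/3`;
* `one_le_genusFF`     : the Riemann–Roch genus of `ℚ̄(X₀(p))` is `≥ 1` for `p ∉ {2,3,5,7,13}`
  (main's S24 `genusFF_modular`);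
* `cuspNeZero`         : `CuspNeZero` — if `(0) − (∞) = div f`, then for the non-special place
  `Q ≠ ∞` of main's `IsFF1.exists_nonspecial'` the function `1/(f − f(Q))` has a single simple
  pole, at `Q`, and is not constant.
-/

set_option autoImplicit false
set_option linter.style.haveILetI false

noncomputable section

namespace Fermat.Agent.S15P.Cusp45

open AlgebraicCurve ModularCurve Fermat.Agent.S24 WithZero

local notation "Qb" => AlgebraicClosure ℚ

theorem genusFormula_prime {p : ℕ} (hp : p.Prime) :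
    genusFormula p = ((p : ℚ) + 1) / 12 - (nuTwo p : ℚ) / 4 - (nuThree p : ℚ) / 3 := by
  have h1 := Fermat.Agent.S20.Count.Index.dedekindPsi_mul_of_not_dvd hp one_ne_zero
    hp.not_dvd_one
  have h2 := Fermat.Agent.BAD.GenusIneq.cuspCount_prime_mul hp one_ne_zero hp.not_dvd_one
  rw [mul_one] at h1 h2
  rw [dedekindPsi_one, mul_one] at h1
  rw [cuspCount_one, mul_one] at h2
  unfold genusFormula
  rw [h1, h2]
  push_cast
  ring

theorem nuTwo_eleven : nuTwo 11 = 0 := by
  unfold nuTwo
  rw [Nat.card_eq_zero]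
  left
  rw [isEmpty_subtype]
  decide

/-- The genus of `X₀(p)` is positive for `p ∉ {2, 3, 5, 7, 13}`. -/
theorem one_le_genusFF (p : ℕ) [NeZero p] (hp : p.Prime)
    (hp' : p ∉ ({2, 3, 5, 7, 13} : Finset ℕ)) :
    1 ≤ genusFF Qb (FN p) := by
  have hg := Fermat.Agent.Lib.FF.Res.genusFF_modular p
  rw [genusFormula_prime hp] at hg
  have h2 : (nuTwo p : ℚ) ≤ 2 := by
    exact_mod_cast Fermat.Agent.BAD.GenusIneq.nuTwo_prime_le hp
  have h3 : (nuThree p : ℚ) ≤ 2 := by
    exact_mod_cast Fermat.Agent.BAD.GenusIneq.nuThree_prime_le hp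
  by_contra hcon
  have h0 : genusFF Qb (FN p) = 0 := by omega
  rw [h0, Nat.cast_zero] at hg
  have hp13 : (p : ℚ) ≤ 13 := by linarith
  have hp13' : p ≤ 13 := by exact_mod_cast hp13
  have hp2 := hp.two_le
  interval_cases p
  · simp at hp'
  · simp at hp'
  · norm_num at hp
  · simp at hp'
  · norm_num at hp
  · simp at hp'
  · norm_num at hp
  · norm_num at hp
  · norm_num at hp
  · rw [nuTwo_eleven] at hg
    norm_num at hg
    linarith
  · norm_num at hp
  · simp at hp'

/-- An effective divisor of degree zero is zero. -/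
theorem eq_zero_of_nonneg_of_degree (p : ℕ) [NeZero p] {G : Divisor Qb (FN p)}
    (hG : ∀ P, 0 ≤ G P) (hdeg : Divisor.degree G = 0) : G = 0 := by
  classical
  have h1 : Divisor.degree G = ∑ P ∈ G.support, G P := by
    rw [Divisor.degree, Finsupp.liftAddHom_apply, Finsupp.sum]
    refine Finset.sum_congr rfl fun P _ => ?_
    rw [AddMonoidHom.mulRight_apply, Fermat.Agent.Lib.FF.RR.deg_eq_one_modular, Nat.cast_one,
      mul_one]
  rw [h1] at hdeg
  have h2 := (Finset.sum_eq_zero_iff_of_nonneg (fun P _ => hG P)).mp hdeg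
  ext P
  by_cases hP : P ∈ G.support
  · exact h2 P hP
  · rw [Finsupp.notMem_support_iff] at hP
    rw [hP]
    rfl

/-- **`CuspNeZero`**: `c₀ ≠ 0` for `p ∉ {2, 3, 5, 7, 13}`. -/
theorem cuspNeZero : CuspNeZero := by
  classical
  intro p _ hp hp' h0
  have hne := cuspInf_ne_cuspZero p hp
  rw [c0, Pic0.mk, QuotientAddGroup.eq_zero_iff, AddSubgroup.mem_addSubgroupOf] at h0
  obtain ⟨f, hf0, hf⟩ := h0
  have hf' : ∀ v : Place Qb (FN p), v.ord f
      = (if cuspZero p = v then 1 else 0) - (if cuspInf p = v then 1 else 0) := by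
    intro v
    rw [← hf v]
    show (cuspDiv p) v = _
    rw [cuspDiv, Finsupp.sub_apply, Finsupp.single_apply, Finsupp.single_apply]
  -- the non-special place `Q ≠ ∞`
  obtain ⟨T, hT1, hTS, hT⟩ := (Fermat.Agent.Lib.FF.Res.isFF1_modular p).exists_nonspecial'
    {cuspInf p} 1 (one_le_genusFF p hp hp')
  obtain ⟨Q, rfl⟩ := Finset.card_eq_one.mp hT1
  have hQ : Q ≠ cuspInf p := by
    intro h
    rw [h] at hTS
    exact (Finset.disjoint_singleton.mp hTS) rfl
  -- `f` is regular away from `∞`, with a simple pole at `∞`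
  have hreg : ∀ v : Place Qb (FN p), v ≠ cuspInf p → 0 ≤ v.ord f := by
    intro v hv
    rw [hf' v, if_neg (Ne.symm hv)]
    split_ifs <;> norm_num
  have hinf : (cuspInf p).ord f = -1 := by
    rw [hf' (cuspInf p), if_neg hne.symm, if_pos rfl]
    norm_num
  -- the value of `f` at `Q`
  obtain ⟨c, hc⟩ := Fermat.Agent.Lib.FF.RR.resK_modular p Q ⟨f, mem_of_ord_nonneg Q (hreg Q hQ)⟩
  obtain ⟨g, hg⟩ : ∃ g : FN p, g = f - algebraMap Qb (FN p) c := ⟨_, rfl⟩
  have hg0 : g ≠ 0 := by
    intro h
    rw [hg, sub_eq_zero] at h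
    rw [h, ord_algebraMap] at hinf
    norm_num at hinf
  have hgQ : 1 ≤ Q.ord g := by
    have h1 := Fermat.Agent.Lib.FF.RR.val_le_exp_neg_one_of_mem_maximalIdeal Q _ hc
    have h2 : ((⟨f, mem_of_ord_nonneg Q (hreg Q hQ)⟩ - algebraMap Qb Q.toValuationSubring c :
        Q.toValuationSubring) : FN p) = g := by
      rw [hg]
      rfl
    rw [h2, Place.adicValuation_le_exp_iff] at h1
    rcases h1 with h1 | h1
    · exact absurd h1 hg0
    · linarith
  have hgreg : ∀ v : Place Qb (FN p), v ≠ cuspInf p → 0 ≤ v.ord g := by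
    intro v hv
    apply ord_nonneg_of_mem
    rw [hg]
    exact v.toValuationSubring.sub_mem (mem_of_ord_nonneg v (hreg v hv)) (v.algebraMap_mem' c)
  have hginf : -1 ≤ (cuspInf p).ord g := by
    have hfinv : f⁻¹ ∈ (cuspInf p).toValuationSubring := by
      apply mem_of_ord_nonneg
      rw [Place.ord_inv, hinf]
      norm_num
    have hmem : g * f⁻¹ ∈ (cuspInf p).toValuationSubring := by
      have e : g * f⁻¹ = 1 - algebraMap Qb (FN p) c * f⁻¹ := by
        rw [hg]
        field_simp
      rw [e]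
      exact (cuspInf p).toValuationSubring.sub_mem (cuspInf p).toValuationSubring.one_mem
        ((cuspInf p).toValuationSubring.mul_mem _ _ ((cuspInf p).algebraMap_mem' c) hfinv)
    have h1 := ord_nonneg_of_mem _ hmem
    rw [(cuspInf p).ord_mul hg0 (inv_ne_zero hf0), Place.ord_inv, hinf] at h1
    linarith
  -- the divisor of `g` is `(Q) − (∞)`
  obtain ⟨D, hD, hdeg⟩ := (Fermat.Agent.Lib.FF.RR.hasPrincipalDivisors_modular p).exists_divisor
    g hg0
  have hE : D + Finsupp.single (cuspInf p) 1 - Finsupp.single Q 1 = 0 := by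
    apply eq_zero_of_nonneg_of_degree p
    · intro v
      rw [Finsupp.sub_apply, Finsupp.add_apply, Finsupp.single_apply, Finsupp.single_apply, hD v]
      by_cases h1 : v = cuspInf p
      · rw [h1, if_pos rfl, if_neg hQ]
        linarith
      · by_cases h2 : v = Q
        · rw [h2, if_neg (Ne.symm hQ), if_pos rfl]
          linarith
        · rw [if_neg (Ne.symm h1), if_neg (Ne.symm h2)]
          have := hgreg v h1
          linarith
    · rw [map_sub, map_add, hdeg, Divisor.degree_single, Divisor.degree_single,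
        Fermat.Agent.Lib.FF.RR.deg_eq_one_modular, Fermat.Agent.Lib.FF.RR.deg_eq_one_modular]
      norm_num
  have hordg : ∀ v : Place Qb (FN p), v.ord g
      = (if Q = v then 1 else 0) - (if cuspInf p = v then 1 else 0) := by
    intro v
    have h1 := congrArg (fun E : Divisor Qb (FN p) => E v) hE
    simp only [Finsupp.sub_apply, Finsupp.add_apply, Finsupp.single_apply,
      Finsupp.zero_apply] at h1
    rw [← hD v]
    linarith
  -- `1 / g` has a single simple pole, at `Q`
  obtain ⟨c', hc'⟩ := hT g⁻¹ (by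
      intro Q' hQ'
      rw [Finset.mem_singleton] at hQ'
      rw [hQ', Place.ord_inv, hordg Q, if_pos rfl, if_neg (Ne.symm hQ)]
      norm_num) (by
      intro Q' hQ'
      rw [Finset.mem_singleton] at hQ'
      rw [Place.ord_inv, hordg Q', if_neg (Ne.symm hQ')]
      split_ifs <;> norm_num)
  have h1 : Q.ord g⁻¹ = -1 := by
    rw [Place.ord_inv, hordg Q, if_pos rfl, if_neg (Ne.symm hQ)]
    norm_num
  rw [hc', ord_algebraMap] at h1
  norm_num at h1

end Fermat.Agent.S15P.Cusp45
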