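import Mathlib
import Fermat.Agent.S15P.Cusp45.Level
import Fermat.Agent.CAR.V3.UnitRel
import Fermat.Agent.CAR.V3.UnitCert
import Fermat.Agent.Lib.FF.IntP
import Fermat.Agent.ESJ.HeckeInputs

/-!
# S15 / L12 : the cuspidal class is torsion

The modular unit `f = Δ(q)/Δ(q^p)` (main's `CAR.V3.Units.u1`) lies in `ℚ̄(X₀(p))`, has `q`-order
`1 - p` at the cusp `∞`, and is integral, together with `p¹² f⁻¹`, over `ℚ̄[j]`: no zeros or poles
off the cusps.  Its divisor has degree `0`, hence equals `(p - 1) · ((0) - (∞))`.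

* `fU p hp` : the unit, `coe_fU`, `ord_fU_cuspInf`, `ord_fU_of_regular`;
* `div_fU`  : `ord_v f = ((p - 1) • cuspDiv p) v` for every place `v`;
* `cuspTorsion` : `CuspTorsion`.
-/

set_option autoImplicit false
set_option linter.style.haveILetI false

noncomputable section

namespace Fermat.Agent.S15P.Cusp45

open AlgebraicCurve ModularCurve Fermat.Agent.S24 Fermat.Agent.CAR.V3

local notation "Qb" => AlgebraicClosure ℚ

theorem coe_jd_one (N : ℕ) [NeZero N] :
    ((jd N 1 (one_dvd N) : FN N) : LaurentSeries Qb) = jqModC Qb := by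
  show ((jFormal N ⟨1, one_dvd N⟩ : FN N) : LaurentSeries KQ) = _
  rw [Fermat.Agent.ESJ.Cong.ConjAnalytic.coe_jFormal, Fermat.Agent.S28.TD.Jd_one]

theorem coe_jd_self (p : ℕ) [NeZero p] :
    ((jd p p dvd_rfl : FN p) : LaurentSeries Qb) = jqNModC Qb p := by
  show ((jFormal p ⟨p, dvd_rfl⟩ : FN p) : LaurentSeries KQ) = _
  rw [Fermat.Agent.ESJ.Cong.ConjAnalytic.coe_jFormal, Fermat.Agent.S28.TD.Jd_eq_jqNModC]

theorem u1_mem_FN (p : ℕ) [NeZero p] (hp : p.Prime) :
    Units.u1 Qb p ∈ modularFunctionFieldBar p := by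
  have h0 : jqModC Qb ∈ (modularFunctionFieldBar p).toSubfield := by
    rw [← coe_jd_one p]
    exact (jd p 1 (one_dvd p)).2
  have h1 : jqNModC Qb p ∈ (modularFunctionFieldBar p).toSubfield := by
    rw [← coe_jd_self p]
    exact (jd p p dvd_rfl).2
  exact Units.u1_mem hp (modularFunctionFieldBar p).toSubfield h0 h1

/-- **The modular unit** `Δ(q)/Δ(q^p)` as a function on `X₀(p)`. -/
def fU (p : ℕ) [NeZero p] (hp : p.Prime) : FN p := ⟨Units.u1 Qb p, u1_mem_FN p hp⟩

theorem coe_fU (p : ℕ) [NeZero p] (hp : p.Prime) :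
    ((fU p hp : FN p) : LaurentSeries Qb) = Units.u1 Qb p := rfl

theorem fU_ne_zero (p : ℕ) [NeZero p] (hp : p.Prime) : fU p hp ≠ 0 := by
  intro h0
  have h1 := coe_fU p hp
  rw [h0] at h1
  exact UnitCert.u1_ne_zero p Qb h1.symm

/-- The order of the unit at the cusp `∞` is `1 - p`. -/
theorem ord_fU_cuspInf (p : ℕ) [NeZero p] (hp : p.Prime) :
    (cuspInf p).ord (fU p hp) = 1 - (p : ℤ) := by
  rw [cuspInfEq p, Fermat.Agent.Lib.FF.PlaceInf.placeInfL_ord Qb p _ (fU_ne_zero p hp), coe_fU]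
  have hl := Units.isLead_u1 Qb p
  exact Fermat.Agent.S28.ValInd.order_eq_of_coeff
    (by rw [hl.coeff_eq]; exact one_ne_zero) (fun _ hk => hl.coeff_lt hk)

/-- The unit has neither a zero nor a pole where `j` is regular. -/
theorem ord_fU_of_regular (p : ℕ) [NeZero p] (hp : p.Prime) (x : Place Qb (FN p))
    (hx : 0 ≤ x.ord (jd p 1 (one_dvd p))) : x.ord (fU p hp) = 0 := by
  let ι : FN p →+* LaurentSeries Qb :=
    ((modularFunctionFieldBar p).val : FN p →+* LaurentSeries Qb)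
  let φ : ↥(Algebra.adjoin Qb {jd p 1 (one_dvd p)}) →+* LaurentSeries Qb :=
    ι.comp (algebraMap ↥(Algebra.adjoin Qb {jd p 1 (one_dvd p)}) (FN p))
  letI : Algebra ↥(Algebra.adjoin Qb {jd p 1 (one_dvd p)}) (LaurentSeries Qb) := φ.toAlgebra
  have hJ' : IsIntegral ↥(Algebra.adjoin Qb {jd p 1 (one_dvd p)}) (jqModC Qb) := by
    have h := isIntegral_algebraMap (R := ↥(Algebra.adjoin Qb {jd p 1 (one_dvd p)}))
      (A := LaurentSeries Qb)
      (x := ⟨jd p 1 (one_dvd p), Algebra.self_mem_adjoin_singleton Qb _⟩)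
    have e : algebraMap ↥(Algebra.adjoin Qb {jd p 1 (one_dvd p)}) (LaurentSeries Qb)
        ⟨jd p 1 (one_dvd p), Algebra.self_mem_adjoin_singleton Qb _⟩ = jqModC Qb :=
      coe_jd_one p
    rwa [e] at h
  have back : ∀ y : FN p, IsIntegral ↥(Algebra.adjoin Qb {jd p 1 (one_dvd p)}) (ι y) →
      IsIntegral ↥(Algebra.adjoin Qb {jd p 1 (one_dvd p)}) y := by
    rintro y ⟨P, hP, hP0⟩
    refine ⟨P, hP, Subtype.ext ?_⟩
    have h2 := Polynomial.hom_eval₂ P
      (algebraMap ↥(Algebra.adjoin Qb {jd p 1 (one_dvd p)}) (FN p)) ι y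
    exact h2.trans hP0
  obtain ⟨-, -, h1, h2, -, -⟩ := Units.isIntegral_units Qb hp hJ'
  have hf : IsIntegral ↥(Algebra.adjoin Qb {jd p 1 (one_dvd p)}) (fU p hp) := back _ h1
  have hg : IsIntegral ↥(Algebra.adjoin Qb {jd p 1 (one_dvd p)})
      (algebraMap Qb (FN p) ((p : Qb) ^ 12) * (fU p hp)⁻¹) := by
    apply back
    have e : ι (algebraMap Qb (FN p) ((p : Qb) ^ 12) * (fU p hp)⁻¹)
        = HahnSeries.C ((p : Qb) ^ 12) * Units.u1inv Qb p := by
      show ((algebraMap Qb (FN p) ((p : Qb) ^ 12) * (fU p hp)⁻¹ : FN p) : LaurentSeries Qb) = _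
      rw [MulMemClass.coe_mul, IntermediateField.coe_inv, coe_fU, ← UnitCert.u1inv_eq_inv]
      congr 1
      show algebraMap Qb (LaurentSeries Qb) ((p : Qb) ^ 12) = _
      rw [algebraMap_laurentSeries_eq_single]
      rfl
    rw [e]
    exact h2
  have m1 := Fermat.Agent.Lib.FF.IntP.mem_of_isIntegral (jd p 1 (one_dvd p)) x hx hf
  have m2 := Fermat.Agent.Lib.FF.IntP.mem_of_isIntegral (jd p 1 (one_dvd p)) x hx hg
  have o1 := ord_nonneg_of_mem x m1
  have o2 := ord_nonneg_of_mem x m2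
  have hc : algebraMap Qb (FN p) ((p : Qb) ^ 12) ≠ 0 := by
    rw [Ne, map_eq_zero]
    exact pow_ne_zero 12 (Nat.cast_ne_zero.mpr hp.ne_zero)
  rw [x.ord_mul hc (inv_ne_zero (fU_ne_zero p hp)), ord_algebraMap, x.ord_inv] at o2
  omega

/-- A place which is not a cusp is a place where `j` is regular. -/
theorem ord_jd_one_nonneg_of_ne (p : ℕ) [NeZero p] (hp : p.Prime) (v : Place Qb (FN p))
    (h1 : v ≠ cuspInf p) (h2 : v ≠ cuspZero p) : 0 ≤ v.ord (jd p 1 (one_dvd p)) := by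
  by_contra hcon
  rw [not_le] at hcon
  rcases ((cuspUnique p hp v).2 hcon).1 with h | h
  · exact h1 h
  · exact h2 h

/-- **The divisor of the modular unit** is `(p - 1) · ((0) - (∞))`. -/
theorem div_fU (p : ℕ) [NeZero p] (hp : p.Prime) (v : Place Qb (FN p)) :
    ((p - 1) • cuspDiv p) v = v.ord (fU p hp) := by
  classical
  have hne := cuspInf_ne_cuspZero p hp
  obtain ⟨D, hD, hdeg⟩ := (Fermat.Agent.ESJ.HeckeInputs.hasPrincipalDivisors_bar p).exists_divisor
    (fU p hp) (fU_ne_zero p hp)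
  have hDeq : D = Finsupp.single (cuspInf p) (D (cuspInf p))
      + Finsupp.single (cuspZero p) (D (cuspZero p)) := by
    ext w
    rw [Finsupp.add_apply, Finsupp.single_apply, Finsupp.single_apply]
    by_cases h1 : w = cuspInf p
    · rw [h1, if_pos rfl, if_neg hne.symm, add_zero]
    · by_cases h2 : w = cuspZero p
      · rw [h2, if_neg hne, if_pos rfl, zero_add]
      · rw [if_neg (Ne.symm h1), if_neg (Ne.symm h2), add_zero, hD w]
        exact ord_fU_of_regular p hp w (ord_jd_one_nonneg_of_ne p hp w h1 h2)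
  have hdeg' : D (cuspInf p) + D (cuspZero p) = 0 := by
    rw [hDeq, map_add, Divisor.degree_single, Divisor.degree_single,
      Fermat.Agent.ESJ.HeckeInputs.deg_eq_one_bar, Fermat.Agent.ESJ.HeckeInputs.deg_eq_one_bar]
      at hdeg
    simpa using hdeg
  have hinf : D (cuspInf p) = 1 - (p : ℤ) := by rw [hD, ord_fU_cuspInf]
  have hzero : D (cuspZero p) = (p : ℤ) - 1 := by linarith
  have hp1 : ((p - 1 : ℕ) : ℤ) = (p : ℤ) - 1 := by
    rw [Nat.cast_sub hp.one_le]
    rfl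
  rw [cuspDiv, Finsupp.smul_apply, Finsupp.sub_apply, Finsupp.single_apply, Finsupp.single_apply,
    nsmul_eq_mul, hp1]
  by_cases h1 : v = cuspInf p
  · rw [h1, if_neg hne.symm, if_pos rfl, ← hD, hinf]
    ring
  · by_cases h2 : v = cuspZero p
    · rw [h2, if_pos rfl, if_neg hne, ← hD, hzero]
      ring
    · rw [if_neg (Ne.symm h2), if_neg (Ne.symm h1),
        ord_fU_of_regular p hp v (ord_jd_one_nonneg_of_ne p hp v h1 h2)]
      ring

/-- **`CuspTorsion`**: `(p - 1) c₀ = 0`. -/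
theorem cuspTorsion : CuspTorsion := by
  intro p _ hp
  have hmk : (p - 1) • (Pic0.mk ⟨cuspDiv p, cuspDiv_mem_degZero p⟩ : JZero p)
      = Pic0.mk ((p - 1) • (⟨cuspDiv p, cuspDiv_mem_degZero p⟩ :
          Divisor.degZero (K := Qb) (F := FN p))) :=
    (map_nsmul (QuotientAddGroup.mk' _) _ _).symm
  rw [c0, hmk, Pic0.mk, QuotientAddGroup.eq_zero_iff, AddSubgroup.mem_addSubgroupOf]
  exact ⟨fU p hp, fU_ne_zero p hp, fun v => div_fU p hp v⟩

end Fermat.Agent.S15P.Cusp45
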