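import Mathlib
import Fermat.Agent.S15P.Cusp45.Galois
import Fermat.Agent.S15P.Cusp45.Hecke
import Fermat.Agent.S15P.Cusp45.Torsion
import Fermat.Agent.S15P.Cusp45.NeZero

/-!
# S15 / L12 : the cuspidal class `c₀ = [(0) − (∞)] ∈ J₀(p)(ℚ̄)` — summary

All seven interface Props of `Interface.lean` are theorems:
`cuspOrders`, `cuspUnique`, `cuspInfEq` (`Level.lean`), `cuspGalois` (`Galois.lean`),
`cuspHecke` (`Hecke.lean`), `cuspTorsion` (`Torsion.lean`), `cuspNeZero` (`NeZero.lean`).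

Consumer forms:

* `c0_mem_fixed`     : `σ • c₀ = c₀` for every `σ ∈ Gal(ℚ̄/ℚ)`;
* `hecke_nsmul_c0`   : `T_q (n • c₀) = (1 + q) • (n • c₀)` for every prime `q ≠ p`;
* `exists_prime_order_multiple` : for `p ∉ {2, 3, 5, 7, 13}` there are a prime `r ∣ p - 1` and
  `n₁` with `c₁ := n₁ • c₀ ≠ 0`, `r • c₁ = 0` (the `c₁` of the end-game), Galois-fixed and
  Eisenstein.
-/

set_option autoImplicit false

noncomputable section

namespace Fermat.Agent.S15P.Cusp45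

open AlgebraicCurve ModularCurve Fermat.Agent.S24

local notation "Qb" => AlgebraicClosure ℚ

theorem c0_mem_fixed (p : ℕ) [NeZero p] (hp : p.Prime) (σ : Qb ≃ₐ[ℚ] Qb) : σ • c0 p = c0 p :=
  (cuspGalois p hp σ).2.2

theorem smul_nsmul_c0 (p : ℕ) [NeZero p] (hp : p.Prime) (σ : Qb ≃ₐ[ℚ] Qb) (n : ℕ) :
    σ • (n • c0 p) = n • c0 p := by
  have h := map_nsmul (DistribSMul.toAddMonoidHom (JZero p) σ) n (c0 p)
  have h' : σ • (n • c0 p) = n • (σ • c0 p) := h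
  rw [h', c0_mem_fixed p hp σ]

theorem hecke_nsmul_c0 (p : ℕ) [NeZero p] (hp : p.Prime) (q : Nat.Primes) (hq : (q : ℕ) ≠ p)
    (n : ℕ) : heckeOperatorBar p q (n • c0 p) = (1 + (q : ℕ)) • (n • c0 p) := by
  rw [map_nsmul, cuspHecke p hp q hq, smul_comm]

/-- **The class `c₁` of prime order** used by the end-game. -/
theorem exists_prime_order_multiple (p : ℕ) [NeZero p] (hp : p.Prime)
    (hp' : p ∉ ({2, 3, 5, 7, 13} : Finset ℕ)) :
    ∃ r n₁ : ℕ, r.Prime ∧ r ∣ p - 1 ∧ n₁ • c0 p ≠ 0 ∧ r • (n₁ • c0 p) = 0 ∧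
      (∀ σ : Qb ≃ₐ[ℚ] Qb, σ • (n₁ • c0 p) = n₁ • c0 p) ∧
      ∀ q : Nat.Primes, (q : ℕ) ≠ p →
        heckeOperatorBar p q (n₁ • c0 p) = (1 + (q : ℕ)) • (n₁ • c0 p) := by
  have htors := cuspTorsion p hp
  have hne := cuspNeZero p hp hp'
  have hp1 : 0 < p - 1 := by have := hp.two_le; omega
  set n := addOrderOf (c0 p) with hn
  have hndvd : n ∣ p - 1 := addOrderOf_dvd_of_nsmul_eq_zero htors
  have hn0 : 0 < n := Nat.pos_of_dvd_of_pos hndvd hp1
  have hn1 : n ≠ 1 := by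
    intro h
    exact hne (AddMonoid.addOrderOf_eq_one_iff.mp h)
  have hr : (Nat.minFac n).Prime := Nat.minFac_prime hn1
  obtain ⟨n₁, hn₁⟩ := Nat.minFac_dvd n
  refine ⟨Nat.minFac n, n₁, hr, (Nat.minFac_dvd n).trans hndvd, ?_, ?_, fun σ => smul_nsmul_c0 p hp σ n₁,
    fun q hq => hecke_nsmul_c0 p hp q hq n₁⟩
  · intro h0
    have hdvd : n ∣ n₁ := addOrderOf_dvd_of_nsmul_eq_zero h0
    have hn₁0 : 0 < n₁ := by
      rcases Nat.eq_zero_or_pos n₁ with h | h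
      · rw [h, mul_zero] at hn₁
        omega
      · exact h
    have hle := Nat.le_of_dvd hn₁0 hdvd
    have h2 := hr.two_le
    nlinarith
  · rw [← mul_nsmul', ← hn₁]
    exact addOrderOf_nsmul_eq_zero (c0 p)

end Fermat.Agent.S15P.Cusp45
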